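import Fermat.Agent.LT.A2.H201.ProdIntGeom

/-!
# Row LT, tower A2, leaf A2.03.1.1.02 `WX467.ProdIntC` (helper201)

OFF-MAIN.  `prodIntC201 : WX467.ProdIntC` VERBATIM (Spec `LT/A2/H467/DataSpec.lean`,
helper467@8b34cad8f, sha256 72cb2b55afa8db8d).

Route: for a finite set `T` of finite places the push-forward of `(μ × μ)|_{𝔸_T × 𝔸_T}` to
`∏_{u ∣ ∞} K_u² × ∏_{v ∈ T} K_v²` is translation invariant and finite on one box, hence a multiple
of the product of the local measures (uniqueness of Haar measures); the constant is computed on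
the reference box `W × W` and does not depend on `T` because `μ_v(𝒪_v) = 1` outside `S`.
`prodFn f f'` vanishes outside `𝔸_T × 𝔸_T` and is a function of the coordinates in
`∞ ∪ T` on it, as soon as `f'_v = stdFn v` outside `T`.
-/

set_option autoImplicit false
set_option linter.unusedSectionVars false
set_option linter.style.haveILetI false

open IsDedekindDomain NumberField AutomorphicForm MeasureTheory Set
open scoped MatrixGroups Topology ENNReal

noncomputable section

namespace Fermat.Agent.LT.A2.H201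

open Fermat.Agent.LT.H556 Fermat.Agent.LT.A2 Fermat.Agent.LT.A2.WX467 Fermat.Agent.LT.T1.H671

/-- A measure with the three properties of `IsHaarL` is an additive Haar measure. -/
theorem isAddHaarMeasure_of_isHaarL201 {k : Type} [Field k] [TopologicalSpace k]
    [IsTopologicalRing k] (μ : @Measure k (borel k)) (h : IsHaarL μ) :
    @Measure.IsAddHaarMeasure k _ _ (borel k) μ := by
  letI : MeasurableSpace k := borel k
  haveI : BorelSpace k := ⟨rfl⟩
  have hinv : μ.IsAddLeftInvariant := by
    refine ⟨fun x => ?_⟩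
    ext S hS
    rw [Measure.map_apply (measurable_const_add x) hS]
    have h1 : (fun y => x + y) ⁻¹' S = (fun y => -x + y) '' S := by
      ext y
      constructor
      · intro hy
        exact ⟨x + y, hy, by simp⟩
      · rintro ⟨z, hz, rfl⟩
        simpa using hz
    rw [h1]
    exact h.1 (-x) S
  exact
    { toIsFiniteMeasureOnCompacts := ⟨fun C hC => h.2.1 C hC⟩
      toIsAddLeftInvariant := hinv
      toIsOpenPosMeasure := ⟨fun U hU hne => (h.2.2 U hU hne).ne'⟩ }

variable {K : Type} [Field K] [NumberField K]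

/-- The integral of the standard function. -/
theorem intL_stdFn201 (v : HeightOneSpectrum (𝓞 K))
    (μ : @Measure (v.adicCompletion K) (borel (v.adicCompletion K)))
    (hμ : @Measure.IsAddHaarMeasure _ _ _ (borel (v.adicCompletion K)) μ) :
    intL μ (stdFn v) = ((μ (EFin201 v) * μ (EFin201 v)).toReal : ℂ) := by
  classical
  letI : MeasurableSpace (v.adicCompletion K) := borel _
  haveI : BorelSpace (v.adicCompletion K) := ⟨rfl⟩
  haveI : SecondCountableTopology (v.adicCompletion K) :=
    Fermat.Agent.LT.H11.SC.secondCountableTopology_adicCompletion_h11 K v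
  haveI : LocallyCompactSpace (v.adicCompletion K) :=
    Fermat.Agent.LT.H11.LC.locallyCompactSpace_adicCompletion_h11 K v
  haveI : SigmaFinite μ := inferInstance
  have h1 : stdFn v = (EFin201 v ×ˢ EFin201 v).indicator (fun _ => (1 : ℂ)) := by
    funext ξ
    by_cases hξ : ξ.1 ∈ v.adicCompletionIntegers K ∧ ξ.2 ∈ v.adicCompletionIntegers K
    · rw [stdFn_of_mem201 v ξ hξ.1 hξ.2, Set.indicator_of_mem]
      exact ⟨hξ.1, hξ.2⟩
    · rw [stdFn_of_not_mem201 v ξ hξ, Set.indicator_of_notMem]
      exact fun h => hξ ⟨h.1, h.2⟩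
  have hm : MeasurableSet (EFin201 v ×ˢ EFin201 v) :=
    (isOpen_EFin201 v).measurableSet.prod (isOpen_EFin201 v).measurableSet
  unfold intL
  rw [h1, integral_indicator_const _ hm, measureReal_def, Measure.prod_prod]
  simp

/-- **A2.03.1.1.02 PROD-INT**, VERBATIM. -/
theorem prodIntC201 : ProdIntC := by
  intro K _ _ _hT1 μ μinf μfin hμ hinf hfin hS
  obtain ⟨S, hS⟩ := hS
  classical
  letI mX : MeasurableSpace (A0.Adl K) := borel _
  haveI bX : BorelSpace (A0.Adl K) := ⟨rfl⟩
  letI mInf : ∀ u : InfinitePlace K, MeasurableSpace u.Completion := fun u => borel _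
  haveI bInf : ∀ u : InfinitePlace K, BorelSpace u.Completion := fun u => ⟨rfl⟩
  letI mFin : ∀ v : HeightOneSpectrum (𝓞 K), MeasurableSpace (v.adicCompletion K) :=
    fun v => borel _
  haveI bFin : ∀ v : HeightOneSpectrum (𝓞 K), BorelSpace (v.adicCompletion K) :=
    fun v => ⟨rfl⟩
  haveI : LocallyCompactSpace (A0.Adl K) :=
    Fermat.Agent.LT.H11.LC.locallyCompactSpace_adeleRing_h11 K
  haveI : SecondCountableTopology (A0.Adl K) :=
    Fermat.Agent.LT.H11.SC.secondCountableTopology_adeleRing_h11 K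
  haveI : ∀ u : InfinitePlace K, SecondCountableTopology u.Completion :=
    fun u => Fermat.Agent.LT.H11.SC.secondCountableTopology_infCompletion_h11 K u
  haveI : ∀ v : HeightOneSpectrum (𝓞 K), SecondCountableTopology (v.adicCompletion K) :=
    fun v => Fermat.Agent.LT.H11.SC.secondCountableTopology_adicCompletion_h11 K v
  haveI : ∀ v : HeightOneSpectrum (𝓞 K), LocallyCompactSpace (v.adicCompletion K) :=
    fun v => Fermat.Agent.LT.H11.LC.locallyCompactSpace_adicCompletion_h11 K v
  haveI hμH : μ.IsAddHaarMeasure := hμ.1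
  haveI hinfH : ∀ u : InfinitePlace K, (μinf u).IsAddHaarMeasure :=
    fun u => isAddHaarMeasure_of_isHaarL201 (μinf u) (hinf u)
  haveI hfinH : ∀ v : HeightOneSpectrum (𝓞 K), (μfin v).IsAddHaarMeasure :=
    fun v => isAddHaarMeasure_of_isHaarL201 (μfin v) (hfin v)
  -- the local masses of the box
  set gI : InfinitePlace K → ℝ≥0∞ := fun u => μinf u (EInf201 u) * μinf u (EInf201 u) with hgI
  set gF : HeightOneSpectrum (𝓞 K) → ℝ≥0∞ :=
    fun v => μfin v (EFin201 v) * μfin v (EFin201 v) with hgF
  have hgF1 : ∀ v, v ∉ S → gF v = 1 := by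
    intro v hv
    have : μfin v (EFin201 v) = 1 := hS v hv
    simp [hgF, this]
  have hgI0 : ∀ u, gI u ≠ 0 := fun u =>
    mul_ne_zero (Measure.measure_pos_of_nonempty_interior _ (interior_EInf_nonempty201 u)).ne'
      (Measure.measure_pos_of_nonempty_interior _ (interior_EInf_nonempty201 u)).ne'
  have hgItop : ∀ u, gI u ≠ ∞ := fun u =>
    ENNReal.mul_ne_top (isCompact_EInf201 u).measure_lt_top.ne
      (isCompact_EInf201 u).measure_lt_top.ne
  have hgF0 : ∀ v, gF v ≠ 0 := fun v =>
    mul_ne_zero (Measure.measure_pos_of_nonempty_interior _ (interior_EFin_nonempty201 v)).ne'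
      (Measure.measure_pos_of_nonempty_interior _ (interior_EFin_nonempty201 v)).ne'
  have hgFtop : ∀ v, gF v ≠ ∞ := fun v =>
    ENNReal.mul_ne_top (isCompact_EFin201 v).measure_lt_top.ne
      (isCompact_EFin201 v).measure_lt_top.ne
  set D : ℝ≥0∞ := (∏ u, gI u) * ∏ v ∈ S, gF v with hD
  have hD0 : D ≠ 0 :=
    mul_ne_zero (Finset.prod_ne_zero_iff.2 fun u _ => hgI0 u)
      (Finset.prod_ne_zero_iff.2 fun v _ => hgF0 v)
  have hDtop : D ≠ ∞ :=
    ENNReal.mul_ne_top (ENNReal.prod_ne_top fun u _ => hgItop u)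
      (ENNReal.prod_ne_top fun v _ => hgFtop v)
  have hW0 : μ (W201 K) ≠ 0 := (Measure.measure_pos_of_mem_nhds μ W_mem_nhds201).ne'
  have hWtop : μ (W201 K) ≠ ∞ := isCompact_W201.measure_lt_top.ne
  set c0 : ℝ≥0∞ := μ (W201 K) * μ (W201 K) / D with hc0
  have hc00 : c0 ≠ 0 := ENNReal.div_ne_zero.2 ⟨mul_ne_zero hW0 hW0, hDtop⟩
  have hc0top : c0 ≠ ∞ := ENNReal.div_ne_top (ENNReal.mul_ne_top hWtop hWtop) hD0
  refine ⟨((c0.toReal : ℝ) : ℂ), ⟨?_, ?_⟩⟩
  · exact_mod_cast (ENNReal.toReal_pos hc00 hc0top).ne'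
  · intro f f' hf hf' hstd
    obtain ⟨S', hS'⟩ := hstd
    set T : Finset (HeightOneSpectrum (𝓞 K)) := S ∪ S' with hT
    have hST : S ⊆ T := Finset.subset_union_left
    have hf'T : ∀ v, v ∉ T → f' v = stdFn v := fun v hv =>
      hS' v (fun h => hv (Finset.mem_union_right _ h))
    have hsurj : ∀ (a : ∀ u : InfinitePlace K, u.Completion)
        (b : ∀ v : ↥T, (v : HeightOneSpectrum (𝓞 K)).adicCompletion K),
        ∃ x ∈ AT201 T, (∀ u, pInf201 u x = a u) ∧
          ∀ v : ↥T, pFin201 (v : HeightOneSpectrum (𝓞 K)) x = b v :=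
      fun a b => ⟨mkAdele201 T a b, mkAdele_mem201 T a b, fun u => pInf_mkAdele201 T a b u,
        fun v => pFin_mkAdele_mem201 T a b v⟩
    have key := integral_box201 (X := A0.Adl K) (ι₁ := InfinitePlace K) (ι₂ := ↥T)
      (k₁ := fun u => u.Completion)
      (k₂ := fun v => (v : HeightOneSpectrum (𝓞 K)).adicCompletion K) μ μinf
      (fun v : ↥T => μfin (v : HeightOneSpectrum (𝓞 K)))
      (fun u => pInf201 u) (fun v : ↥T => pFin201 (v : HeightOneSpectrum (𝓞 K)))
      (fun u => continuous_pInf201 u) (fun v => continuous_pFin201 _)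
      (fun u x y => pInf_add201 u x y) (fun v x y => pFin_add201 _ x y)
      (AT201 T) (isOpen_AT201 T) hsurj
      (fun u => EInf201 u) (fun v : ↥T => EFin201 (v : HeightOneSpectrum (𝓞 K)))
      (fun u => isCompact_EInf201 u) (fun v => isCompact_EFin201 _)
      (fun u => interior_EInf_nonempty201 u) (fun v => interior_EFin_nonempty201 _)
      (by rw [boxSrc_eq_W201]; exact hWtop)
      f (fun v : ↥T => f' (v : HeightOneSpectrum (𝓞 K)))
      (fun u => (hf u).1) (fun v => (hf' _).1) (fun u => (hf u).2) (fun v => (hf' _).2)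
    rw [boxSrc_eq_W201] at key
    rw [prodFn_eq_indicator201 T f f' hf'T]
    refine ⟨key.1, ?_⟩
    have hconst : (∏ u, gI u) * ∏ v : ↥T, gF (v : HeightOneSpectrum (𝓞 K)) = D := by
      rw [hD, Finset.prod_coe_sort T gF]
      congr 1
      exact (Finset.prod_subset hST fun v _ hv => hgF1 v hv).symm
    have hprod : ∏ᶠ v : HeightOneSpectrum (𝓞 K), intL (μfin v) (f' v)
        = ∏ v : ↥T, ∫ y, f' (v : HeightOneSpectrum (𝓞 K)) y
            ∂((μfin (v : HeightOneSpectrum (𝓞 K))).prod (μfin (v : HeightOneSpectrum (𝓞 K)))) := by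
      have hsupp : Function.mulSupport (fun v : HeightOneSpectrum (𝓞 K) => intL (μfin v) (f' v))
          ⊆ (T : Set (HeightOneSpectrum (𝓞 K))) := by
        intro v hv
        by_contra hvT
        apply hv
        have hvT' : v ∉ T := hvT
        have hvS : v ∉ S := fun h => hvT' (hST h)
        show intL (μfin v) (f' v) = 1
        rw [hf'T v hvT', intL_stdFn201 v (μfin v) (hfinH v)]
        have : μfin v (EFin201 v) = 1 := hS v hvS
        simp [this]
      rw [finprod_eq_prod_of_mulSupport_subset _ hsupp]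
      exact (Finset.prod_coe_sort T (fun v => intL (μfin v) (f' v))).symm
    have hval := key.2
    rw [hconst] at hval
    rw [hprod]
    exact hval

end Fermat.Agent.LT.A2.H201
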