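import Mathlib

/-!
# Row LT, tower A2, leaf A2.03.1.1.02 `WX467.ProdIntC` -- abstract core (helper201)

OFF-MAIN.  Mathlib only.

* `isAddLeftInvariant_map_restrict201`: the push-forward of the restriction of a translation
  invariant measure to an open subgroup `B` under an additive map `q` which is onto on `B` is
  translation invariant.
* `map_restrict_eq_smul201`: it is a multiple of any Haar measure of the target, the constant
  being computed on one box.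
* `integral_box201`: the integral formula for functions of finitely many coordinates.
-/

set_option autoImplicit false
set_option linter.unusedSectionVars false
set_option linter.style.haveILetI false

open MeasureTheory Set Filter Topology
open scoped ENNReal NNReal

noncomputable section

namespace Fermat.Agent.LT.A2.H201

section Push

variable {Y H : Type*} [AddCommGroup Y] [TopologicalSpace Y] [MeasurableSpace Y] [BorelSpace Y]
  [IsTopologicalAddGroup Y]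
  [AddCommGroup H] [TopologicalSpace H] [MeasurableSpace H] [BorelSpace H]
  [IsTopologicalAddGroup H]

/-- Push-forward of the restriction of an invariant measure to a subgroup `B` under an additive
map which is onto on `B`: the result is invariant. -/
theorem isAddLeftInvariant_map_restrict201 (lam : Measure Y) [lam.IsAddLeftInvariant]
    (B : AddSubgroup Y) (hB : MeasurableSet (B : Set Y)) (q : Y → H) (hq : Measurable q)
    (hadd : ∀ x y, q (x + y) = q x + q y)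
    (hsurj : ∀ h : H, ∃ b ∈ B, q b = h) :
    ((lam.restrict (B : Set Y)).map q).IsAddLeftInvariant := by
  refine ⟨fun h => ?_⟩
  obtain ⟨b, hb, rfl⟩ := hsurj h
  rw [Measure.map_map (measurable_const_add _) hq]
  have h1 : (fun x => q b + x) ∘ q = q ∘ (fun y => b + y) := by
    funext y
    simp [hadd]
  rw [h1, ← Measure.map_map hq (measurable_const_add b)]
  congr 1
  have h2 : (fun y => b + y) ⁻¹' (B : Set Y) = (B : Set Y) := by
    ext y
    simp only [mem_preimage, SetLike.mem_coe]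
    exact ⟨fun hy => by simpa using B.add_mem (B.neg_mem hb) hy, fun hy => B.add_mem hb hy⟩
  have h3 := Measure.restrict_map (μ := lam) (measurable_const_add b) hB
  rw [h2, map_add_left_eq_self] at h3
  exact h3.symm

/-- The push-forward is a multiple of every Haar measure of the target. -/
theorem map_restrict_eq_smul201 [LocallyCompactSpace H] [SecondCountableTopology H]
    (lam : Measure Y) [lam.IsAddLeftInvariant]
    (B : AddSubgroup Y) (hB : MeasurableSet (B : Set Y)) (q : Y → H) (hq : Measurable q)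
    (hadd : ∀ x y, q (x + y) = q x + q y)
    (hsurj : ∀ h : H, ∃ b ∈ B, q b = h)
    (m : Measure H) [m.IsAddHaarMeasure]
    (E : Set H) (hE : MeasurableSet E) (hEint : (interior E).Nonempty)
    (hfin : lam ((B : Set Y) ∩ q ⁻¹' E) ≠ ∞) (hm0 : m E ≠ 0) (hmtop : m E ≠ ∞) :
    (lam.restrict (B : Set Y)).map q = (lam ((B : Set Y) ∩ q ⁻¹' E) / m E) • m := by
  set nu := (lam.restrict (B : Set Y)).map q with hnu
  have hinv : nu.IsAddLeftInvariant := isAddLeftInvariant_map_restrict201 lam B hB q hq hadd hsurj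
  have hnuE : nu E = lam ((B : Set Y) ∩ q ⁻¹' E) := by
    rw [hnu, Measure.map_apply hq hE, Measure.restrict_apply (hq hE), inter_comm]
  have hfinc : IsFiniteMeasureOnCompacts nu :=
    ⟨fun C hC => measure_lt_top_of_isCompact_of_isAddLeftInvariant (interior E) isOpen_interior
      hEint (ne_top_of_le_ne_top (by rw [hnuE]; exact hfin) (measure_mono interior_subset)) hC⟩
  have h1 := Measure.isAddLeftInvariant_eq_smul nu m
  have h2 : nu E = (Measure.addHaarScalarFactor nu m : ℝ≥0∞) * m E := by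
    conv_lhs => rw [h1]
    simp [Measure.smul_apply]
  have h3 : (Measure.addHaarScalarFactor nu m : ℝ≥0∞) = lam ((B : Set Y) ∩ q ⁻¹' E) / m E := by
    rw [← hnuE, h2, ENNReal.mul_div_cancel_right hm0 hmtop]
  rw [h1, ← h3]
  rfl

end Push

section Box

variable {X : Type*} [AddCommGroup X] [TopologicalSpace X] [IsTopologicalAddGroup X]
  [LocallyCompactSpace X] [SecondCountableTopology X] [MeasurableSpace X] [BorelSpace X]
  {ι₁ ι₂ : Type*} [Fintype ι₁] [Fintype ι₂]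
  {k₁ : ι₁ → Type*} {k₂ : ι₂ → Type*}
  [∀ i, AddCommGroup (k₁ i)] [∀ i, TopologicalSpace (k₁ i)] [∀ i, IsTopologicalAddGroup (k₁ i)]
  [∀ i, LocallyCompactSpace (k₁ i)] [∀ i, SecondCountableTopology (k₁ i)] [∀ i, T2Space (k₁ i)]
  [∀ i, MeasurableSpace (k₁ i)] [∀ i, BorelSpace (k₁ i)]
  [∀ i, AddCommGroup (k₂ i)] [∀ i, TopologicalSpace (k₂ i)] [∀ i, IsTopologicalAddGroup (k₂ i)]
  [∀ i, LocallyCompactSpace (k₂ i)] [∀ i, SecondCountableTopology (k₂ i)] [∀ i, T2Space (k₂ i)]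
  [∀ i, MeasurableSpace (k₂ i)] [∀ i, BorelSpace (k₂ i)]

/-- The target of the coordinate map. -/
abbrev BoxTarget201 (k₁ : ι₁ → Type*) (k₂ : ι₂ → Type*) : Type _ :=
  (∀ i, k₁ i × k₁ i) × (∀ i, k₂ i × k₂ i)

/-- The coordinate map `X × X → ∏ (k_i × k_i)`. -/
def boxMap201 (p₁ : ∀ i, X → k₁ i) (p₂ : ∀ i, X → k₂ i) (ξ : X × X) : BoxTarget201 k₁ k₂ :=
  (fun i => (p₁ i ξ.1, p₁ i ξ.2), fun i => (p₂ i ξ.1, p₂ i ξ.2))

/-- The product function on the target. -/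
def boxFn201 (f₁ : ∀ i, k₁ i × k₁ i → ℂ) (f₂ : ∀ i, k₂ i × k₂ i → ℂ)
    (h : BoxTarget201 k₁ k₂) : ℂ :=
  (∏ i, f₁ i (h.1 i)) * ∏ i, f₂ i (h.2 i)

/-- The reference box of the target. -/
def boxSet201 (E₁ : ∀ i, Set (k₁ i)) (E₂ : ∀ i, Set (k₂ i)) : Set (BoxTarget201 k₁ k₂) :=
  (univ.pi fun i => E₁ i ×ˢ E₁ i) ×ˢ (univ.pi fun i => E₂ i ×ˢ E₂ i)

/-- The reference box of the source. -/
def boxSrc201 (A : AddSubgroup X) (p₁ : ∀ i, X → k₁ i) (p₂ : ∀ i, X → k₂ i)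
    (E₁ : ∀ i, Set (k₁ i)) (E₂ : ∀ i, Set (k₂ i)) : Set X :=
  {x | x ∈ A ∧ (∀ i, p₁ i x ∈ E₁ i) ∧ ∀ i, p₂ i x ∈ E₂ i}

/-- The product measure of the target. -/
def boxMeas201 (μ₁ : ∀ i, Measure (k₁ i)) (μ₂ : ∀ i, Measure (k₂ i)) :
    Measure (BoxTarget201 k₁ k₂) :=
  (Measure.pi fun i => (μ₁ i).prod (μ₁ i)).prod (Measure.pi fun i => (μ₂ i).prod (μ₂ i))

theorem continuous_boxMap201 (p₁ : ∀ i, X → k₁ i) (p₂ : ∀ i, X → k₂ i)
    (hp₁ : ∀ i, Continuous (p₁ i)) (hp₂ : ∀ i, Continuous (p₂ i)) :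
    Continuous (boxMap201 p₁ p₂) := by
  unfold boxMap201
  refine Continuous.prodMk ?_ ?_
  · exact continuous_pi fun i =>
      ((hp₁ i).comp continuous_fst).prodMk ((hp₁ i).comp continuous_snd)
  · exact continuous_pi fun i =>
      ((hp₂ i).comp continuous_fst).prodMk ((hp₂ i).comp continuous_snd)

theorem continuous_boxFn201 (f₁ : ∀ i, k₁ i × k₁ i → ℂ) (f₂ : ∀ i, k₂ i × k₂ i → ℂ)
    (hf₁ : ∀ i, Continuous (f₁ i)) (hf₂ : ∀ i, Continuous (f₂ i)) :
    Continuous (boxFn201 f₁ f₂) := by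
  unfold boxFn201
  refine Continuous.mul ?_ ?_
  · exact continuous_finsetProd _ fun i _ =>
      (hf₁ i).comp ((continuous_apply i).comp continuous_fst)
  · exact continuous_finsetProd _ fun i _ =>
      (hf₂ i).comp ((continuous_apply i).comp continuous_snd)

theorem preimage_boxSet201 (A : AddSubgroup X) (p₁ : ∀ i, X → k₁ i) (p₂ : ∀ i, X → k₂ i)
    (E₁ : ∀ i, Set (k₁ i)) (E₂ : ∀ i, Set (k₂ i)) :
    ((A.prod A : AddSubgroup (X × X)) : Set (X × X)) ∩ boxMap201 p₁ p₂ ⁻¹' boxSet201 E₁ E₂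
      = boxSrc201 A p₁ p₂ E₁ E₂ ×ˢ boxSrc201 A p₁ p₂ E₁ E₂ := by
  ext ξ
  constructor
  · rintro ⟨h12, h34⟩
    have h12' : ξ.1 ∈ A ∧ ξ.2 ∈ A := AddSubgroup.mem_prod.1 h12
    have h3 : ∀ i, (p₁ i ξ.1, p₁ i ξ.2) ∈ E₁ i ×ˢ E₁ i := fun i => h34.1 i (Set.mem_univ i)
    have h4 : ∀ i, (p₂ i ξ.1, p₂ i ξ.2) ∈ E₂ i ×ˢ E₂ i := fun i => h34.2 i (Set.mem_univ i)
    exact ⟨⟨h12'.1, fun i => (h3 i).1, fun i => (h4 i).1⟩,
      ⟨h12'.2, fun i => (h3 i).2, fun i => (h4 i).2⟩⟩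
  · rintro ⟨⟨h1, h3, h4⟩, ⟨h2, h5, h6⟩⟩
    refine ⟨AddSubgroup.mem_prod.2 ⟨h1, h2⟩, ?_, ?_⟩
    · intro i _
      exact ⟨h3 i, h5 i⟩
    · intro i _
      exact ⟨h4 i, h6 i⟩

theorem boxMeas_boxSet201 (μ₁ : ∀ i, Measure (k₁ i)) (μ₂ : ∀ i, Measure (k₂ i))
    [∀ i, (μ₁ i).IsAddHaarMeasure] [∀ i, (μ₂ i).IsAddHaarMeasure]
    (E₁ : ∀ i, Set (k₁ i)) (E₂ : ∀ i, Set (k₂ i)) :
    boxMeas201 μ₁ μ₂ (boxSet201 E₁ E₂)
      = (∏ i, μ₁ i (E₁ i) * μ₁ i (E₁ i)) * ∏ i, μ₂ i (E₂ i) * μ₂ i (E₂ i) := by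
  unfold boxMeas201 boxSet201
  rw [Measure.prod_prod, Measure.pi_pi, Measure.pi_pi]
  simp only [Measure.prod_prod]

/-- **The integral formula for functions of finitely many coordinates.** -/
theorem integral_box201 (μ : Measure X) [μ.IsAddHaarMeasure]
    (μ₁ : ∀ i, Measure (k₁ i)) (μ₂ : ∀ i, Measure (k₂ i))
    [∀ i, (μ₁ i).IsAddHaarMeasure] [∀ i, (μ₂ i).IsAddHaarMeasure]
    (p₁ : ∀ i, X → k₁ i) (p₂ : ∀ i, X → k₂ i)
    (hp₁ : ∀ i, Continuous (p₁ i)) (hp₂ : ∀ i, Continuous (p₂ i))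
    (hadd₁ : ∀ i x y, p₁ i (x + y) = p₁ i x + p₁ i y)
    (hadd₂ : ∀ i x y, p₂ i (x + y) = p₂ i x + p₂ i y)
    (A : AddSubgroup X) (hA : IsOpen (A : Set X))
    (hsurj : ∀ (a : ∀ i, k₁ i) (b : ∀ i, k₂ i),
      ∃ x ∈ A, (∀ i, p₁ i x = a i) ∧ ∀ i, p₂ i x = b i)
    (E₁ : ∀ i, Set (k₁ i)) (E₂ : ∀ i, Set (k₂ i))
    (hE₁ : ∀ i, IsCompact (E₁ i)) (hE₂ : ∀ i, IsCompact (E₂ i))
    (hE₁' : ∀ i, (interior (E₁ i)).Nonempty) (hE₂' : ∀ i, (interior (E₂ i)).Nonempty)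
    (hW : μ (boxSrc201 A p₁ p₂ E₁ E₂) ≠ ∞)
    (f₁ : ∀ i, k₁ i × k₁ i → ℂ) (f₂ : ∀ i, k₂ i × k₂ i → ℂ)
    (hf₁ : ∀ i, Continuous (f₁ i)) (hf₂ : ∀ i, Continuous (f₂ i))
    (hf₁' : ∀ i, Integrable (f₁ i) ((μ₁ i).prod (μ₁ i)))
    (hf₂' : ∀ i, Integrable (f₂ i) ((μ₂ i).prod (μ₂ i))) :
    Integrable (((A.prod A : AddSubgroup (X × X)) : Set (X × X)).indicator
        (fun ξ => boxFn201 f₁ f₂ (boxMap201 p₁ p₂ ξ))) (μ.prod μ) ∧
      ∫ ξ, ((A.prod A : AddSubgroup (X × X)) : Set (X × X)).indicator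
          (fun ξ => boxFn201 f₁ f₂ (boxMap201 p₁ p₂ ξ)) ξ ∂(μ.prod μ)
        = ((μ (boxSrc201 A p₁ p₂ E₁ E₂) * μ (boxSrc201 A p₁ p₂ E₁ E₂) /
            ((∏ i, μ₁ i (E₁ i) * μ₁ i (E₁ i)) * ∏ i, μ₂ i (E₂ i) * μ₂ i (E₂ i))).toReal : ℂ) *
          ((∏ i, ∫ y, f₁ i y ∂((μ₁ i).prod (μ₁ i))) *
            ∏ i, ∫ y, f₂ i y ∂((μ₂ i).prod (μ₂ i))) := by
  classical
  set B : AddSubgroup (X × X) := A.prod A with hBdef
  set q := boxMap201 p₁ p₂ with hqdef
  set Ψ := boxFn201 f₁ f₂ with hΨdef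
  set m := boxMeas201 μ₁ μ₂ with hmdef
  set E := boxSet201 E₁ E₂ with hEdef
  set W := boxSrc201 A p₁ p₂ E₁ E₂ with hWdef
  have hBopen : IsOpen (B : Set (X × X)) := by
    have : (B : Set (X × X)) = (A : Set X) ×ˢ (A : Set X) := by
      ext ξ; exact AddSubgroup.mem_prod
    rw [this]
    exact hA.prod hA
  have hBmeas : MeasurableSet (B : Set (X × X)) := hBopen.measurableSet
  have hqc : Continuous q := continuous_boxMap201 p₁ p₂ hp₁ hp₂
  have hqm : Measurable q := hqc.measurable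
  have hqadd : ∀ x y, q (x + y) = q x + q y := by
    intro x y
    simp only [hqdef, boxMap201]
    refine Prod.ext ?_ ?_
    · funext i
      simp [hadd₁]
    · funext i
      simp [hadd₂]
  have hqsurj : ∀ h : BoxTarget201 k₁ k₂, ∃ b ∈ B, q b = h := by
    intro h
    obtain ⟨x, hx, hx1, hx2⟩ := hsurj (fun i => (h.1 i).1) (fun i => (h.2 i).1)
    obtain ⟨y, hy, hy1, hy2⟩ := hsurj (fun i => (h.1 i).2) (fun i => (h.2 i).2)
    refine ⟨(x, y), AddSubgroup.mem_prod.2 ⟨hx, hy⟩, ?_⟩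
    simp only [hqdef, boxMap201]
    refine Prod.ext ?_ ?_
    · funext i
      simp [hx1, hy1]
    · funext i
      simp [hx2, hy2]
  haveI hs1 : ∀ i, SigmaFinite (μ₁ i) := fun i => inferInstance
  haveI hs2 : ∀ i, SigmaFinite (μ₂ i) := fun i => inferInstance
  haveI hh1 : ∀ i, ((μ₁ i).prod (μ₁ i)).IsAddHaarMeasure := fun i => inferInstance
  haveI hh2 : ∀ i, ((μ₂ i).prod (μ₂ i)).IsAddHaarMeasure := fun i => inferInstance
  haveI hp1 : (Measure.pi fun i => (μ₁ i).prod (μ₁ i)).IsAddHaarMeasure := inferInstance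
  haveI hp2 : (Measure.pi fun i => (μ₂ i).prod (μ₂ i)).IsAddHaarMeasure := inferInstance
  haveI hmHaar : m.IsAddHaarMeasure := by
    rw [hmdef]; unfold boxMeas201; infer_instance
  have hEc : IsCompact E := by
    rw [hEdef]; unfold boxSet201
    exact (isCompact_univ_pi fun i => (hE₁ i).prod (hE₁ i)).prod
      (isCompact_univ_pi fun i => (hE₂ i).prod (hE₂ i))
  have hEm : MeasurableSet E := hEc.isClosed.measurableSet
  have hEint : (interior E).Nonempty := by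
    rw [hEdef]; unfold boxSet201
    rw [interior_prod_eq, interior_pi_set finite_univ, interior_pi_set finite_univ]
    simp only [interior_prod_eq]
    refine Set.Nonempty.prod ?_ ?_
    · exact Set.univ_pi_nonempty_iff.2 fun i => (hE₁' i).prod (hE₁' i)
    · exact Set.univ_pi_nonempty_iff.2 fun i => (hE₂' i).prod (hE₂' i)
  have hpre : (B : Set (X × X)) ∩ q ⁻¹' E = W ×ˢ W := preimage_boxSet201 A p₁ p₂ E₁ E₂
  have hlamW : (μ.prod μ) ((B : Set (X × X)) ∩ q ⁻¹' E) = μ W * μ W := by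
    rw [hpre, Measure.prod_prod]
  have hfin : (μ.prod μ) ((B : Set (X × X)) ∩ q ⁻¹' E) ≠ ∞ := by
    rw [hlamW]
    exact ENNReal.mul_ne_top hW hW
  have hmE : m E = (∏ i, μ₁ i (E₁ i) * μ₁ i (E₁ i)) * ∏ i, μ₂ i (E₂ i) * μ₂ i (E₂ i) :=
    boxMeas_boxSet201 μ₁ μ₂ E₁ E₂
  have hm0 : m E ≠ 0 :=
    (Measure.measure_pos_of_nonempty_interior m hEint).ne'
  have hmtop : m E ≠ ∞ := hEc.measure_lt_top.ne
  have hmap := map_restrict_eq_smul201 (μ.prod μ) B hBmeas q hqm hqadd hqsurj m E hEm hEint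
    hfin hm0 hmtop
  rw [hlamW, hmE] at hmap
  set c : ℝ≥0∞ := μ W * μ W /
    ((∏ i, μ₁ i (E₁ i) * μ₁ i (E₁ i)) * ∏ i, μ₂ i (E₂ i) * μ₂ i (E₂ i)) with hcdef
  have hctop : c ≠ ∞ := by
    rw [hcdef]
    refine ENNReal.div_ne_top (ENNReal.mul_ne_top hW hW) ?_
    rw [← hmE]; exact hm0
  have hΨc : Continuous Ψ := continuous_boxFn201 f₁ f₂ hf₁ hf₂
  have hΨint : Integrable Ψ m := by
    rw [hΨdef, hmdef]; unfold boxFn201 boxMeas201
    exact Integrable.mul_prod (Integrable.fintype_prod_dep hf₁')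
      (Integrable.fintype_prod_dep hf₂')
  have hΨval : ∫ h, Ψ h ∂m = (∏ i, ∫ y, f₁ i y ∂((μ₁ i).prod (μ₁ i))) *
      ∏ i, ∫ y, f₂ i y ∂((μ₂ i).prod (μ₂ i)) := by
    rw [hΨdef, hmdef]; unfold boxFn201 boxMeas201
    have h0 := integral_prod_mul (μ := Measure.pi fun i => (μ₁ i).prod (μ₁ i))
      (ν := Measure.pi fun i => (μ₂ i).prod (μ₂ i))
      (fun a : (∀ i, k₁ i × k₁ i) => ∏ i, f₁ i (a i))
      (fun b : (∀ i, k₂ i × k₂ i) => ∏ i, f₂ i (b i))
    rw [integral_fintype_prod_eq_prod, integral_fintype_prod_eq_prod] at h0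
    exact h0
  have hΨint' : Integrable Ψ (((μ.prod μ).restrict (B : Set (X × X))).map q) := by
    rw [hmap]
    exact hΨint.smul_measure hctop
  have hcomp : Integrable (fun ξ => Ψ (q ξ)) ((μ.prod μ).restrict (B : Set (X × X))) :=
    (integrable_map_measure hΨc.aestronglyMeasurable hqm.aemeasurable).1 hΨint'
  refine ⟨?_, ?_⟩
  · exact (integrable_indicator_iff hBmeas).2 hcomp
  · rw [integral_indicator hBmeas]
    have h1 : ∫ ξ in (B : Set (X × X)), Ψ (q ξ) ∂(μ.prod μ)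
        = ∫ h, Ψ h ∂(((μ.prod μ).restrict (B : Set (X × X))).map q) :=
      (integral_map hqm.aemeasurable hΨc.aestronglyMeasurable).symm
    rw [h1, hmap, integral_smul_measure, hΨval]
    rfl

end Box

end Fermat.Agent.LT.A2.H201
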