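import Fermat.Agent.LT.A2.H467.DataSpec
import Fermat.Agent.LT.A2.H201.PushHaar
import Fermat.Agent.LT.T1.H671.HaarFin

/-!
# Row LT, tower A2, leaf A2.03.1.1.02 `WX467.ProdIntC` -- adelic geometry (helper201)

OFF-MAIN.  The open subgroups `𝔸_T = {x : x_v ∈ 𝒪_v for v ∉ T}`, the coordinate maps, the
reference box, and the identification of `prodFn f f'` with a function of finitely many
coordinates on `𝔸_T × 𝔸_T` (zero outside).
-/

set_option autoImplicit false
set_option linter.unusedSectionVars false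
set_option linter.style.haveILetI false

open IsDedekindDomain NumberField AutomorphicForm MeasureTheory Set
open scoped MatrixGroups Topology ENNReal

noncomputable section

namespace Fermat.Agent.LT.A2.H201

open Fermat.Agent.LT.H556 Fermat.Agent.LT.A2 Fermat.Agent.LT.A2.WX467 Fermat.Agent.LT.T1.H671

variable {K : Type} [Field K] [NumberField K]

/-- The coordinate of an adele at the infinite place `u`. -/
def pInf201 (u : InfinitePlace K) (x : A0.Adl K) : u.Completion := x.1 u

/-- The coordinate of an adele at the finite place `v`. -/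
def pFin201 (v : HeightOneSpectrum (𝓞 K)) (x : A0.Adl K) : v.adicCompletion K := x.2 v

theorem continuous_pInf201 (u : InfinitePlace K) : Continuous (pInf201 (K := K) u) :=
  (continuous_apply u).comp continuous_fst

theorem continuous_pFin201 (v : HeightOneSpectrum (𝓞 K)) : Continuous (pFin201 (K := K) v) :=
  (continuous_eval671 v).comp continuous_snd

theorem pInf_add201 (u : InfinitePlace K) (x y : A0.Adl K) :
    pInf201 u (x + y) = pInf201 u x + pInf201 u y := rfl

theorem pFin_add201 (v : HeightOneSpectrum (𝓞 K)) (x y : A0.Adl K) :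
    pFin201 v (x + y) = pFin201 v x + pFin201 v y := rfl

/-- The open subgroup `𝔸_T` of the adeles which are integral outside `T`. -/
def AT201 (T : Finset (HeightOneSpectrum (𝓞 K))) : AddSubgroup (A0.Adl K) where
  carrier := {x | ∀ v, v ∉ T → pFin201 v x ∈ v.adicCompletionIntegers K}
  zero_mem' := fun v _ => zero_mem (v.adicCompletionIntegers K)
  add_mem' := fun {x y} hx hy v hv => by
    rw [pFin_add201]
    exact add_mem (hx v hv) (hy v hv)
  neg_mem' := fun {x} hx v hv => by
    have : pFin201 v (-x) = -pFin201 v x := rfl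
    rw [this]
    exact neg_mem (hx v hv)

theorem mem_AT201 (T : Finset (HeightOneSpectrum (𝓞 K))) (x : A0.Adl K) :
    x ∈ AT201 T ↔ ∀ v, v ∉ T → pFin201 v x ∈ v.adicCompletionIntegers K := Iff.rfl

theorem isOpen_AT201 (T : Finset (HeightOneSpectrum (𝓞 K))) :
    IsOpen ((AT201 T : AddSubgroup (A0.Adl K)) : Set (A0.Adl K)) := by
  have h1 : IsOpen {f : FiniteAdeleRing (𝓞 K) K |
      ∀ v, v ∉ T → f v ∈ v.adicCompletionIntegers K} :=
    RestrictedProduct.isOpen_forall_imp_mem
      (R := fun v : HeightOneSpectrum (𝓞 K) => v.adicCompletion K)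
      (A := fun v => (v.adicCompletionIntegers K : Set (v.adicCompletion K)))
      (fun _ => Valued.isOpen_valuationSubring _) (p := fun v => v ∉ T)
  exact h1.preimage (continuous_snd (X := InfiniteAdeleRing K) (Y := FiniteAdeleRing (𝓞 K) K))

open scoped Classical in
/-- The adele with prescribed coordinates at the infinite places and at the places of `T`, zero
elsewhere. -/
def mkAdele201 (T : Finset (HeightOneSpectrum (𝓞 K))) (a : ∀ u : InfinitePlace K, u.Completion)
    (b : ∀ v : ↥T, (v : HeightOneSpectrum (𝓞 K)).adicCompletion K) : A0.Adl K :=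
  (a, ⟨fun v => if h : v ∈ T then b ⟨v, h⟩ else 0, by
    have hfin : {v : HeightOneSpectrum (𝓞 K) | v ∈ T}.Finite := T.finite_toSet
    refine Filter.eventually_cofinite.2 (hfin.subset ?_)
    intro v hv
    by_contra hvT
    apply hv
    simp only [dif_neg (show ¬ v ∈ T from hvT)]
    exact zero_mem _⟩)

theorem pInf_mkAdele201 (T : Finset (HeightOneSpectrum (𝓞 K)))
    (a : ∀ u : InfinitePlace K, u.Completion)
    (b : ∀ v : ↥T, (v : HeightOneSpectrum (𝓞 K)).adicCompletion K) (u : InfinitePlace K) :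
    pInf201 u (mkAdele201 T a b) = a u := rfl

theorem pFin_mkAdele_mem201 (T : Finset (HeightOneSpectrum (𝓞 K)))
    (a : ∀ u : InfinitePlace K, u.Completion)
    (b : ∀ v : ↥T, (v : HeightOneSpectrum (𝓞 K)).adicCompletion K) (v : ↥T) :
    pFin201 v.1 (mkAdele201 T a b) = b v := by
  classical
  show (if h : v.1 ∈ T then b ⟨v.1, h⟩ else 0) = b v
  rw [dif_pos v.2]

theorem pFin_mkAdele_not_mem201 (T : Finset (HeightOneSpectrum (𝓞 K)))
    (a : ∀ u : InfinitePlace K, u.Completion)
    (b : ∀ v : ↥T, (v : HeightOneSpectrum (𝓞 K)).adicCompletion K)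
    (v : HeightOneSpectrum (𝓞 K)) (hv : v ∉ T) :
    pFin201 v (mkAdele201 T a b) = 0 := by
  classical
  show (if h : v ∈ T then b ⟨v, h⟩ else (0 : v.adicCompletion K)) = 0
  rw [dif_neg hv]

theorem mkAdele_mem201 (T : Finset (HeightOneSpectrum (𝓞 K)))
    (a : ∀ u : InfinitePlace K, u.Completion)
    (b : ∀ v : ↥T, (v : HeightOneSpectrum (𝓞 K)).adicCompletion K) :
    mkAdele201 T a b ∈ AT201 T := by
  intro v hv
  rw [pFin_mkAdele_not_mem201 T a b v hv]
  exact zero_mem _

/-! ## The reference box -/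

/-- A compact neighbourhood of `0` in the completion at `u`. -/
def EInf201 (u : InfinitePlace K) : Set u.Completion :=
  Classical.choose (exists_compact_mem_nhds (0 : u.Completion))

theorem isCompact_EInf201 (u : InfinitePlace K) : IsCompact (EInf201 u) :=
  (Classical.choose_spec (exists_compact_mem_nhds (0 : u.Completion))).1

theorem EInf_mem_nhds201 (u : InfinitePlace K) : EInf201 u ∈ 𝓝 (0 : u.Completion) :=
  (Classical.choose_spec (exists_compact_mem_nhds (0 : u.Completion))).2

theorem interior_EInf_nonempty201 (u : InfinitePlace K) : (interior (EInf201 u)).Nonempty :=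
  ⟨0, mem_interior_iff_mem_nhds.2 (EInf_mem_nhds201 u)⟩

/-- The integers of `K_v` as a set. -/
def EFin201 (v : HeightOneSpectrum (𝓞 K)) : Set (v.adicCompletion K) :=
  (v.adicCompletionIntegers K : Set (v.adicCompletion K))

theorem isCompact_EFin201 (v : HeightOneSpectrum (𝓞 K)) : IsCompact (EFin201 (K := K) v) :=
  Fermat.Agent.LT.H11.LC.isCompact_integers_h11 K v

theorem isOpen_EFin201 (v : HeightOneSpectrum (𝓞 K)) : IsOpen (EFin201 (K := K) v) :=
  Valued.isOpen_valuationSubring _

theorem interior_EFin_nonempty201 (v : HeightOneSpectrum (𝓞 K)) :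
    (interior (EFin201 (K := K) v)).Nonempty := by
  rw [(isOpen_EFin201 v).interior_eq]
  exact ⟨0, zero_mem (v.adicCompletionIntegers K)⟩

/-- The reference box of the adeles. -/
def W201 (K : Type) [Field K] [NumberField K] : Set (A0.Adl K) :=
  {x | (∀ u, pInf201 u x ∈ EInf201 u) ∧ ∀ v, pFin201 v x ∈ EFin201 v}

theorem boxSrc_eq_W201 (T : Finset (HeightOneSpectrum (𝓞 K))) :
    boxSrc201 (AT201 T) (fun u : InfinitePlace K => pInf201 u)
      (fun v : ↥T => pFin201 (v : HeightOneSpectrum (𝓞 K)))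
      (fun u : InfinitePlace K => EInf201 u)
      (fun v : ↥T => EFin201 (v : HeightOneSpectrum (𝓞 K))) = W201 K := by
  ext x
  constructor
  · rintro ⟨h1, h2, h3⟩
    refine ⟨h2, fun v => ?_⟩
    by_cases hv : v ∈ T
    · exact h3 ⟨v, hv⟩
    · exact h1 v hv
  · rintro ⟨h1, h2⟩
    exact ⟨fun v _ => h2 v, h1, fun v => h2 v.1⟩

theorem W_eq_prod201 :
    W201 K = ((univ.pi fun u : InfinitePlace K => EInf201 u) ×ˢ intAdeles671 K :
      Set (InfiniteAdeleRing K × FiniteAdeleRing (𝓞 K) K)) := by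
  ext x
  constructor
  · rintro ⟨h1, h2⟩
    exact ⟨fun u _ => h1 u, fun v => h2 v⟩
  · rintro ⟨h1, h2⟩
    exact ⟨fun u => h1 u (mem_univ u), fun v => h2 v⟩

theorem isCompact_W201 : IsCompact (W201 K) := by
  rw [W_eq_prod201]
  exact (isCompact_univ_pi fun u => isCompact_EInf201 u).prod (isCompact_intAdeles671 K)

theorem W_mem_nhds201 : W201 K ∈ 𝓝 (0 : A0.Adl K) := by
  rw [W_eq_prod201]
  have h1 : (univ.pi fun u : InfinitePlace K => EInf201 u) ∈ 𝓝 (0 : InfiniteAdeleRing K) :=
    set_pi_mem_nhds finite_univ fun u _ => EInf_mem_nhds201 u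
  have h2 : intAdeles671 K ∈ 𝓝 (0 : FiniteAdeleRing (𝓞 K) K) :=
    (isOpen_intAdeles671 K).mem_nhds (zero_mem_intAdeles671 K)
  exact prod_mem_nhds h1 h2

/-! ## `prodFn` as a function of finitely many coordinates -/

theorem stdFn_of_mem201 (v : HeightOneSpectrum (𝓞 K))
    (ξ : v.adicCompletion K × v.adicCompletion K)
    (h1 : ξ.1 ∈ v.adicCompletionIntegers K) (h2 : ξ.2 ∈ v.adicCompletionIntegers K) :
    stdFn v ξ = 1 := by
  unfold stdFn
  rw [if_pos ⟨h1, h2⟩]

theorem stdFn_of_not_mem201 (v : HeightOneSpectrum (𝓞 K))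
    (ξ : v.adicCompletion K × v.adicCompletion K)
    (h : ¬ (ξ.1 ∈ v.adicCompletionIntegers K ∧ ξ.2 ∈ v.adicCompletionIntegers K)) :
    stdFn v ξ = 0 := by
  unfold stdFn
  rw [if_neg h]

theorem finite_not_integral201 (x : A0.Adl K) :
    {v : HeightOneSpectrum (𝓞 K) | pFin201 v x ∉ v.adicCompletionIntegers K}.Finite :=
  Filter.eventually_cofinite.1 x.2.2

theorem prodFn_eq_indicator201 (T : Finset (HeightOneSpectrum (𝓞 K)))
    (f : ∀ u : InfinitePlace K, u.Completion × u.Completion → ℂ)
    (f' : ∀ v : HeightOneSpectrum (𝓞 K), v.adicCompletion K × v.adicCompletion K → ℂ)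
    (hf' : ∀ v, v ∉ T → f' v = stdFn v) :
    prodFn f f' = (((AT201 T).prod (AT201 T) : AddSubgroup (A0.Adl K × A0.Adl K)) :
        Set (A0.Adl K × A0.Adl K)).indicator
      (fun ξ => boxFn201 f (fun v : ↥T => f' (v : HeightOneSpectrum (𝓞 K)))
        (boxMap201 (fun u : InfinitePlace K => pInf201 u)
          (fun v : ↥T => pFin201 (v : HeightOneSpectrum (𝓞 K))) ξ)) := by
  classical
  funext ξ
  by_cases hξ : ξ ∈ (((AT201 T).prod (AT201 T) : AddSubgroup (A0.Adl K × A0.Adl K)) :
        Set (A0.Adl K × A0.Adl K))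
  · rw [Set.indicator_of_mem hξ]
    have hξ' : ξ.1 ∈ AT201 T ∧ ξ.2 ∈ AT201 T := AddSubgroup.mem_prod.1 hξ
    unfold prodFn boxFn201 boxMap201
    congr 1
    have hsupp : Function.mulSupport (fun v : HeightOneSpectrum (𝓞 K) => f' v (finVec v ξ))
        ⊆ (T : Set (HeightOneSpectrum (𝓞 K))) := by
      intro v hv
      by_contra hvT
      apply hv
      have hvT' : v ∉ T := hvT
      show f' v (finVec v ξ) = 1
      rw [hf' v hvT']
      exact stdFn_of_mem201 v _ (hξ'.1 v hvT') (hξ'.2 v hvT')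
    rw [finprod_eq_prod_of_mulSupport_subset _ hsupp]
    exact (Finset.prod_coe_sort T (fun v => f' v (finVec v ξ))).symm
  · rw [Set.indicator_of_notMem hξ]
    have hξ' : ¬ (ξ.1 ∈ AT201 T ∧ ξ.2 ∈ AT201 T) := fun h => hξ (AddSubgroup.mem_prod.2 h)
    have hex : ∃ v, v ∉ T ∧ ¬ (pFin201 v ξ.1 ∈ v.adicCompletionIntegers K ∧
        pFin201 v ξ.2 ∈ v.adicCompletionIntegers K) := by
      by_contra hcon
      refine hξ' ⟨fun v hv => ?_, fun v hv => ?_⟩
      · by_contra h; exact hcon ⟨v, hv, fun h' => h h'.1⟩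
      · by_contra h; exact hcon ⟨v, hv, fun h' => h h'.2⟩
    obtain ⟨v₀, hv₀T, hv₀⟩ := hex
    have hzero : f' v₀ (finVec v₀ ξ) = 0 := by
      rw [hf' v₀ hv₀T]
      exact stdFn_of_not_mem201 v₀ _ hv₀
    have hfin : (Function.mulSupport
        (fun v : HeightOneSpectrum (𝓞 K) => f' v (finVec v ξ))).Finite := by
      refine ((T.finite_toSet.union (finite_not_integral201 ξ.1)).union
        (finite_not_integral201 ξ.2)).subset ?_
      intro v hv
      by_contra hcon
      apply hv
      have h1 : v ∉ T := fun h => hcon (Or.inl (Or.inl h))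
      have h2 : pFin201 v ξ.1 ∈ v.adicCompletionIntegers K := by
        by_contra h; exact hcon (Or.inl (Or.inr h))
      have h3 : pFin201 v ξ.2 ∈ v.adicCompletionIntegers K := by
        by_contra h; exact hcon (Or.inr h)
      show f' v (finVec v ξ) = 1
      rw [hf' v h1]
      exact stdFn_of_mem201 v _ h2 h3
    unfold prodFn
    rw [finprod_eq_zero _ v₀ hzero hfin, mul_zero]

end Fermat.Agent.LT.A2.H201
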